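/-
P-S48, block G1 layer (a), slice (A7) (helper48), part 0: the field of meromorphic functions on `ℍ`
having a `q`-expansion at `∞` in the sense of `Gateway/Dict/QExpMer.HasQ`, and the `q`-expansion
as a ring homomorphism on it.

* `hasQ_add`, `hasQ_neg`, `hasQ_const`, `hasQ_eq_of_eq` (the `q`-expansion determines the function);
* `qField : Subfield MerFun`, `qExp : qField →+* LaurentSeries ℂ`, `hasQ_qExp`, `qExp_eq`;
* `mem_fieldRange_qExp_iff`.
-/
import Fermat.Agent.Gateway.Dict.QExpMer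

set_option autoImplicit false

noncomputable section

open ModularCurve
open UpperHalfPlane hiding I
open scoped MatrixGroups

namespace Fermat.Agent.S48x.Ana.LevelP

open Fermat.Agent.S24 Fermat.Agent.S24.QExp
open Fermat.Agent.Gateway.Dict.QExpMer

/-! ### More closure properties of `HasQ` -/

theorem hasQ_add {h h' : MerFun} {s s' : LaurentSeries ℂ} (hs : HasQ h s) (hs' : HasQ h' s') :
    HasQ (h + h') (s + s') := by
  obtain ⟨a, b, hb, hab, hq⟩ := hs
  obtain ⟨a', b', hb', hab', hq'⟩ := hs'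
  have hB := algebraMap_perFun_ne_zero hb
  have hB' := algebraMap_perFun_ne_zero hb'
  refine ⟨a * b' + b * a', b * b', mul_ne_zero hb hb', ?_, ?_⟩
  · rw [hab, hab', div_add_div _ _ hB hB']
    simp only [AddMemClass.coe_add, MulMemClass.coe_mul, map_add, map_mul]
  · rw [map_mul, map_add, map_mul, map_mul, ← hq, ← hq']
    ring

theorem hasQ_neg {h : MerFun} {s : LaurentSeries ℂ} (hs : HasQ h s) : HasQ (-h) (-s) := by
  obtain ⟨a, b, hb, hab, hq⟩ := hs
  refine ⟨-a, b, hb, ?_, ?_⟩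
  · rw [hab, NegMemClass.coe_neg, map_neg, neg_div]
  · have h1 : qLaurent (-a) = -qLaurent a := map_neg qLaurent a
    rw [h1, ← hq]
    ring

theorem hasQ_const (c : ℂ) : HasQ (Conj.const c) (HahnSeries.C c) := by
  have h := hasQ_of_perFun (algebraMap ℂ PerFun c)
  rw [AlgHom.commutes] at h
  have h2 : algebraMap ℂ (LaurentSeries ℂ) c = HahnSeries.C c := by
    rw [algebraMap_laurentSeries_eq_single]
    rfl
  rw [h2] at h
  exact h

/-- The `q`-expansion determines the function. -/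
theorem hasQ_eq_of_eq {h h' : MerFun} {s : LaurentSeries ℂ} (hs : HasQ h s) (hs' : HasQ h' s) :
    h = h' := by
  obtain ⟨a, b, hb, hab, hq⟩ := hs
  obtain ⟨a', b', hb', hab', hq'⟩ := hs'
  have hB := algebraMap_perFun_ne_zero hb
  have hB' := algebraMap_perFun_ne_zero hb'
  have h1 : qLaurent (a * b') = qLaurent (a' * b) := by
    rw [map_mul, map_mul, ← hq, ← hq']
    ring
  have h2 : a * b' = a' * b := qLaurent_injective h1
  have h3 : (a : HolFun) * (b' : HolFun) = (a' : HolFun) * (b : HolFun) :=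
    congrArg (fun f : PerFun => (f : HolFun)) h2
  rw [hab, hab', div_eq_div_iff hB hB', ← map_mul, ← map_mul, h3]

/-! ### The field of functions with a `q`-expansion -/

/-- The subfield of `MerFun` of the functions having a `q`-expansion at `∞`. -/
def qField : Subfield MerFun where
  carrier := {h | ∃ s, HasQ h s}
  mul_mem' := by
    rintro _ _ ⟨s, hs⟩ ⟨s', hs'⟩
    exact ⟨_, hs.mul hs'⟩
  one_mem' := ⟨1, hasQ_one⟩
  add_mem' := by
    rintro _ _ ⟨s, hs⟩ ⟨s', hs'⟩
    exact ⟨_, hasQ_add hs hs'⟩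
  zero_mem' := ⟨0, hasQ_zero⟩
  neg_mem' := by
    rintro _ ⟨s, hs⟩
    exact ⟨_, hasQ_neg hs⟩
  inv_mem' := by
    rintro _ ⟨s, hs⟩
    exact ⟨_, hs.inv⟩

theorem mem_qField {h : MerFun} : h ∈ qField ↔ ∃ s, HasQ h s := Iff.rfl

theorem mem_qField_of_hasQ {h : MerFun} {s : LaurentSeries ℂ} (hs : HasQ h s) : h ∈ qField :=
  ⟨s, hs⟩

/-- The `q`-expansion of an element of `qField`. -/
def qExpFun (h : qField) : LaurentSeries ℂ := Classical.choose h.2

theorem hasQ_qExpFun (h : qField) : HasQ (h : MerFun) (qExpFun h) := Classical.choose_spec h.2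

theorem qExpFun_eq {h : qField} {s : LaurentSeries ℂ} (hs : HasQ (h : MerFun) s) :
    qExpFun h = s := (hasQ_qExpFun h).unique hs

/-- The `q`-expansion, as a ring homomorphism. -/
def qExp : qField →+* LaurentSeries ℂ where
  toFun := qExpFun
  map_one' := qExpFun_eq (h := 1) hasQ_one
  map_mul' a b := qExpFun_eq (h := a * b) ((hasQ_qExpFun a).mul (hasQ_qExpFun b))
  map_zero' := qExpFun_eq (h := 0) hasQ_zero
  map_add' a b := qExpFun_eq (h := a + b) (hasQ_add (hasQ_qExpFun a) (hasQ_qExpFun b))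

theorem hasQ_qExp (h : qField) : HasQ (h : MerFun) (qExp h) := hasQ_qExpFun h

theorem qExp_eq {h : qField} {s : LaurentSeries ℂ} (hs : HasQ (h : MerFun) s) : qExp h = s :=
  qExpFun_eq hs

theorem qExp_mk {h : MerFun} {s : LaurentSeries ℂ} (hs : HasQ h s) :
    qExp ⟨h, mem_qField_of_hasQ hs⟩ = s := qExp_eq hs

theorem mem_fieldRange_qExp_iff {s : LaurentSeries ℂ} : s ∈ qExp.fieldRange ↔ ∃ h, HasQ h s := by
  constructor
  · rintro ⟨h, rfl⟩
    exact ⟨h, hasQ_qExp h⟩
  · rintro ⟨h, hs⟩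
    exact ⟨⟨h, mem_qField_of_hasQ hs⟩, qExp_mk hs⟩

end Fermat.Agent.S48x.Ana.LevelP
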