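/-
P-S48, block G1 layer (a), slice (A7) (helper48), parts 1-3: the analytic dictionary at level
`G ∩ Γ₀(p)` from the one at level `G`, GENERIC in the rational model field `F₀ ⊆ ℚ((q))` and in the
subgroup `G ≤ SL(2,ℤ)` (instance: `F₀ = gamma1Field M`, `G = Gamma1pm M`).

Notation: `F₀_L = laurentBaseChange L F₀`, `F₁_L = laurentBaseChange L (levelField F₀ p)`,
`alphaL`, `betaL : F₀_L →ₐ[L] F₁_L` (helper38's `HeckeFF/Level.lean`).

* `QEmb L ι F` : a ring homomorphism `F_L →+* MerFun` compatible with `q`-expansions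
  (`HasQ (emb f) (coeffMap ι f)`); it is unique (`QEmb.emb_eq`) and sends constants to constants;
* `QEmb.level p E : QEmb L ι (levelField F₀ p)` with `QEmb.emb_alphaL : E'.emb (alphaL x) = E.emb x`
  and `QEmb.emb_betaL : E'.emb (betaL x) = (diagGL p)⁻¹ • E.emb x`  (`z ↦ (E.emb x)(p z)`);
* `conjP p γ hγ = diag(p,1) γ diag(p,1)⁻¹ ∈ SL(2,ℤ)` for `γ ∈ Γ₀(p)`, `smul_diagGL_inv_smul`;
* `embDataP` : `ConjAbs.EmbData` for `F₁_L` with EXACT stabiliser `G ⊓ Γ₀(p)`;
* `isCuspMer_smul_of_conj`, `embP_mem_cuspAllField` : all translates are quotients of cusp functions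
  of an explicit level `n`.
-/
import Fermat.Agent.S48x.Ana.LevelP.QField
import Fermat.Agent.S48x.HeckeFF.Level
import Fermat.Agent.Gateway.Dict.ConjAbs
import Fermat.Agent.Gateway.Dict.NormQExpBridge
import Fermat.Agent.Gateway.Dict.NormAlpha
import Fermat.Agent.S27x.G2b.Stab
import Fermat.Agent.S24.EmbedAbs

set_option autoImplicit false
set_option linter.unusedSectionVars false

noncomputable section

open ModularCurve IntermediateField CongruenceSubgroup
open UpperHalfPlane hiding I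
open scoped MatrixGroups

namespace Fermat.Agent.S48x.Ana.LevelP

open Fermat.Agent.S24 Fermat.Agent.S24.JLevel Fermat.Agent.S24.QExp Fermat.Agent.S24.CuspOrd
open Fermat.Agent.S24.EmbedGen
open Fermat.Agent.Gateway.Dict Fermat.Agent.Gateway.Dict.QExpMer
open Fermat.Agent.Gateway.Dict.ConjAbs
open Fermat.Agent.S48x.HeckeFF

/-! ### Embeddings compatible with `q`-expansions -/

/-- A ring homomorphism from the base change `F_L` of a rational model field `F ⊆ ℚ((q))` to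
`MerFun`, compatible with `q`-expansions at `∞` (through `ι : L →+* ℂ`). -/
structure QEmb (L : Type) [Field L] [Algebra ℚ L] (ι : L →+* ℂ)
    (F : IntermediateField ℚ (LaurentSeries ℚ)) where
  /-- the embedding -/
  emb : ↥(laurentBaseChange L F) →+* MerFun
  hasQ : ∀ f : ↥(laurentBaseChange L F), HasQ (emb f) (coeffMap ι (f : LaurentSeries L))

section QEmbBasic

variable {L : Type} [Field L] [Algebra ℚ L] {ι : L →+* ℂ}
  {F : IntermediateField ℚ (LaurentSeries ℚ)}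

theorem QEmb.emb_const (E : QEmb L ι F) (c : L) :
    E.emb (algebraMap L ↥(laurentBaseChange L F) c) = Conj.const (ι c) := by
  refine hasQ_eq_of_eq (E.hasQ _) ?_
  have h1 : ((algebraMap L ↥(laurentBaseChange L F) c : ↥(laurentBaseChange L F)) :
      LaurentSeries L) = algebraMap L (LaurentSeries L) c := rfl
  rw [h1, coeffMap_algebraMap_eq_C]
  exact hasQ_const (ι c)

/-- Uniqueness of the embedding compatible with `q`-expansions. -/
theorem QEmb.emb_eq (E E' : QEmb L ι F) : E.emb = E'.emb :=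
  RingHom.ext fun f => hasQ_eq_of_eq (E.hasQ f) (E'.hasQ f)

theorem QEmb.emb_mem_qField (E : QEmb L ι F) (f : ↥(laurentBaseChange L F)) :
    E.emb f ∈ qField := mem_qField_of_hasQ (E.hasQ f)

end QEmbBasic

/-! ### Raising the level -/

section Level

variable {F₀ : IntermediateField ℚ (LaurentSeries ℚ)} (p : ℕ) [NeZero p]
  {L : Type} [Field L] [Algebra ℚ L] {ι : L →+* ℂ}

theorem coeffMap_mem_fieldRange_of_mem_levelField (E : QEmb L ι F₀) {x : LaurentSeries ℚ}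
    (hx : x ∈ levelField F₀ p) : coeffMap (algebraMap ℚ ℂ) x ∈ qExp.fieldRange := by
  refine EmbedAbs.mem_subfield_of_mem_adjoin (K := ℚ)
    (qExp.fieldRange.comap (coeffMap (algebraMap ℚ ℂ)))
    ((F₀ : Set (LaurentSeries ℚ)) ∪ (qExpand ℚ p '' F₀)) ?_ ?_ hx
  · intro c
    show coeffMap (algebraMap ℚ ℂ) (algebraMap ℚ (LaurentSeries ℚ) c) ∈ qExp.fieldRange
    rw [coeffMap_algebraMap_eq_C]
    exact mem_fieldRange_qExp_iff.mpr ⟨_, hasQ_const _⟩
  · rintro y (hy | ⟨z, hz, rfl⟩)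
    · show coeffMap (algebraMap ℚ ℂ) y ∈ qExp.fieldRange
      rw [mem_fieldRange_qExp_iff]
      have h1 : HasQ (E.emb ⟨coeffEmb L y, coeffEmb_mem_laurentBaseChange L hy⟩)
          (coeffMap ι (coeffEmb L y)) := E.hasQ _
      rw [EmbedL.coeffMap_coeffEmb_eq] at h1
      exact ⟨_, h1⟩
    · show coeffMap (algebraMap ℚ ℂ) (qExpand ℚ p z) ∈ qExp.fieldRange
      rw [mem_fieldRange_qExp_iff, coeffMap_qExpand]
      have h1 : HasQ (E.emb ⟨coeffEmb L z, coeffEmb_mem_laurentBaseChange L hz⟩)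
          (coeffMap ι (coeffEmb L z)) := E.hasQ _
      rw [EmbedL.coeffMap_coeffEmb_eq] at h1
      exact ⟨_, h1.smul_diagGL p⟩

/-- The dictionary at level `p` exists. -/
theorem QEmb.nonempty_level (E : QEmb L ι F₀) : Nonempty (QEmb L ι (levelField F₀ p)) := by
  obtain ⟨emb₀, hemb₀⟩ := EmbedAbs.exists_ringHom_of_generators (K := L) (L := LaurentSeries L)
    (coeffMap ι) qExp (⇑(coeffEmb L) '' (levelField F₀ p : Set (LaurentSeries ℚ)))
    (fun c => by
      rw [coeffMap_algebraMap_eq_C]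
      exact mem_fieldRange_qExp_iff.mpr ⟨_, hasQ_const _⟩)
    (by
      rintro g ⟨x, hx, rfl⟩
      rw [EmbedL.coeffMap_coeffEmb_eq]
      exact coeffMap_mem_fieldRange_of_mem_levelField p E hx)
  exact ⟨⟨qField.subtype.comp emb₀, fun f => by
    have h := hasQ_qExp (emb₀ f)
    have h2 : qExp (emb₀ f) = coeffMap ι (f : LaurentSeries L) := hemb₀ f
    rw [h2] at h
    exact h⟩⟩

/-- The dictionary at level `p`. -/
def QEmb.level (E : QEmb L ι F₀) : QEmb L ι (levelField F₀ p) :=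
  Classical.choice (E.nonempty_level p)

/-- Compatibility with `α` (inclusion). -/
theorem QEmb.emb_alphaL (E : QEmb L ι F₀) (E' : QEmb L ι (levelField F₀ p))
    (x : ↥(laurentBaseChange L F₀)) : E'.emb (alphaL F₀ p L x) = E.emb x := by
  refine hasQ_eq_of_eq (E'.hasQ _) ?_
  rw [coe_alphaL]
  exact E.hasQ x

/-- Compatibility with `β` (`f(q) ↦ f(q^p)`, i.e. `f(z) ↦ f(p z)`). -/
theorem QEmb.emb_betaL (E : QEmb L ι F₀) (E' : QEmb L ι (levelField F₀ p))
    (x : ↥(laurentBaseChange L F₀)) :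
    E'.emb (betaL F₀ p L x) = (diagGL p)⁻¹ • E.emb x := by
  refine hasQ_eq_of_eq (E'.hasQ _) ?_
  rw [coe_betaL, coeffMap_qExpand]
  exact (E.hasQ x).smul_diagGL p

end Level

/-! ### Conjugation by `diag(p, 1)` -/

section ConjP

variable (p : ℕ) [NeZero p]

theorem dvd_of_mem_Gamma0 {γ : SL(2, ℤ)} (hγ : γ ∈ Gamma0 p) : (p : ℤ) ∣ γ 1 0 := by
  rw [Gamma0_mem] at hγ
  exact (ZMod.intCast_zmod_eq_zero_iff_dvd _ _).mp hγ

/-- `diag(p,1) γ diag(p,1)⁻¹ = (a, p b; c / p, d)` for `γ = (a, b; c, d) ∈ Γ₀(p)`. -/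
def conjP (γ : SL(2, ℤ)) (hγ : γ ∈ Gamma0 p) : SL(2, ℤ) :=
  ⟨!![γ 0 0, (p : ℤ) * γ 0 1; γ 1 0 / (p : ℤ), γ 1 1], by
    rw [Matrix.det_fin_two_of]
    have h1 := dvd_of_mem_Gamma0 p hγ
    have h2 : (p : ℤ) * γ 0 1 * (γ 1 0 / (p : ℤ)) = γ 0 1 * γ 1 0 := by
      rw [mul_comm (p : ℤ), mul_assoc, Int.mul_ediv_cancel' h1]
    rw [h2]
    have h3 := γ.det_coe
    rw [Matrix.det_fin_two] at h3
    exact h3⟩

@[simp] theorem conjP_apply_zero_zero (γ : SL(2, ℤ)) (hγ : γ ∈ Gamma0 p) :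
    conjP p γ hγ 0 0 = γ 0 0 := rfl

@[simp] theorem conjP_apply_zero_one (γ : SL(2, ℤ)) (hγ : γ ∈ Gamma0 p) :
    conjP p γ hγ 0 1 = (p : ℤ) * γ 0 1 := rfl

@[simp] theorem conjP_apply_one_zero (γ : SL(2, ℤ)) (hγ : γ ∈ Gamma0 p) :
    conjP p γ hγ 1 0 = γ 1 0 / (p : ℤ) := rfl

@[simp] theorem conjP_apply_one_one (γ : SL(2, ℤ)) (hγ : γ ∈ Gamma0 p) :
    conjP p γ hγ 1 1 = γ 1 1 := rfl

theorem conjP_one_zero_mul (γ : SL(2, ℤ)) (hγ : γ ∈ Gamma0 p) :
    conjP p γ hγ 1 0 * (p : ℤ) = γ 1 0 := by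
  rw [conjP_apply_one_zero]
  exact Int.ediv_mul_cancel (dvd_of_mem_Gamma0 p hγ)

/-- The integer matrix identity `diag(p,1) γ = conjP γ diag(p,1)`. -/
theorem diag_mul_eq_conjP_mul (γ : SL(2, ℤ)) (hγ : γ ∈ Gamma0 p) :
    !![(p : ℤ), 0; 0, 1] * (γ : Matrix (Fin 2) (Fin 2) ℤ) =
      (conjP p γ hγ : Matrix (Fin 2) (Fin 2) ℤ) * !![(p : ℤ), 0; 0, 1] := by
  have h := conjP_one_zero_mul p γ hγ
  ext i j
  fin_cases i <;> fin_cases j
  · simp [Matrix.mul_apply, Fin.sum_univ_two, mul_comm]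
  · simp [Matrix.mul_apply, Fin.sum_univ_two]
  · simpa [Matrix.mul_apply, Fin.sum_univ_two] using h.symm
  · simp [Matrix.mul_apply, Fin.sum_univ_two]

/-- The identity `diag(p,1) γ = conjP γ diag(p,1)` in `GL(2,ℝ)⁺`. -/
theorem diagGL_mul_slToGLPos (γ : SL(2, ℤ)) (hγ : γ ∈ Gamma0 p) :
    diagGL p * HolFun.slToGLPos γ = HolFun.slToGLPos (conjP p γ hγ) * diagGL p := by
  apply NormQExpBridge.glPos_ext
  have h1 := congrArg (fun M : Matrix (Fin 2) (Fin 2) ℤ => M.map (Int.castRingHom ℝ))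
    (diag_mul_eq_conjP_mul p γ hγ)
  simp only [Matrix.map_mul] at h1
  have e1 : (!![(p : ℤ), 0; 0, 1] : Matrix (Fin 2) (Fin 2) ℤ).map (Int.castRingHom ℝ) =
      !![(p : ℝ), 0; 0, 1] := by
    ext i j
    fin_cases i <;> fin_cases j <;> simp
  rw [e1] at h1
  exact h1

/-- `γ ∈ Γ₀(p)` acts on `z ↦ h (p z)` through its conjugate. -/
theorem smul_diagGL_inv_smul (γ : SL(2, ℤ)) (hγ : γ ∈ Gamma0 p) (h : MerFun) :
    γ • ((diagGL p)⁻¹ • h) = (diagGL p)⁻¹ • (conjP p γ hγ • h) := by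
  rw [sl_smul_eq_glPos, sl_smul_eq_glPos (conjP p γ hγ), ← mul_smul, ← mul_smul]
  congr 1
  have h1 := diagGL_mul_slToGLPos p γ hγ
  rw [mul_inv_eq_iff_eq_mul, mul_assoc, ← h1, ← mul_assoc, inv_mul_cancel, one_mul]

end ConjP

/-! ### The embedding data at level `G ⊓ Γ₀(p)` -/

section Data

variable {F₀ : IntermediateField ℚ (LaurentSeries ℚ)} (p : ℕ) [NeZero p]
  {L : Type} [Field L] [Algebra ℚ L] {ι : L →+* ℂ} {G : Subgroup SL(2, ℤ)}
  {x0 : ↥(laurentBaseChange L F₀)}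

/-- The dictionary attached to embedding data compatible with `q`-expansions. -/
def qEmbOf (D0 : EmbData L ↥(laurentBaseChange L F₀) ι x0 G)
    (hQ : ∀ f : ↥(laurentBaseChange L F₀), HasQ (D0.emb f) (coeffMap ι (f : LaurentSeries L))) :
    QEmb L ι F₀ := ⟨D0.emb, hQ⟩

/-- The embedding at level `p`. -/
def embP (D0 : EmbData L ↥(laurentBaseChange L F₀) ι x0 G)
    (hQ : ∀ f : ↥(laurentBaseChange L F₀), HasQ (D0.emb f) (coeffMap ι (f : LaurentSeries L))) :
    ↥(laurentBaseChange L (levelField F₀ p)) →+* MerFun :=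
  ((qEmbOf D0 hQ).level p).emb

variable (D0 : EmbData L ↥(laurentBaseChange L F₀) ι x0 G)
  (hQ : ∀ f : ↥(laurentBaseChange L F₀), HasQ (D0.emb f) (coeffMap ι (f : LaurentSeries L)))

theorem hasQ_embP (f : ↥(laurentBaseChange L (levelField F₀ p))) :
    HasQ (embP p D0 hQ f) (coeffMap ι (f : LaurentSeries L)) :=
  ((qEmbOf D0 hQ).level p).hasQ f

theorem embP_alphaL (x : ↥(laurentBaseChange L F₀)) :
    embP p D0 hQ (alphaL F₀ p L x) = D0.emb x :=
  (qEmbOf D0 hQ).emb_alphaL p _ x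

theorem embP_betaL (x : ↥(laurentBaseChange L F₀)) :
    embP p D0 hQ (betaL F₀ p L x) = (diagGL p)⁻¹ • D0.emb x :=
  (qEmbOf D0 hQ).emb_betaL p _ x

theorem embP_const (c : L) :
    embP p D0 hQ (algebraMap L ↥(laurentBaseChange L (levelField F₀ p)) c) = Conj.const (ι c) :=
  ((qEmbOf D0 hQ).level p).emb_const c

/-- Uniqueness: any ring homomorphism compatible with `q`-expansions is `embP`. -/
theorem eq_embP (e : ↥(laurentBaseChange L (levelField F₀ p)) →+* MerFun)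
    (he : ∀ f, HasQ (e f) (coeffMap ι (f : LaurentSeries L))) : e = embP p D0 hQ :=
  QEmb.emb_eq ⟨e, he⟩ ((qEmbOf D0 hQ).level p)

/-- `γ ∈ G ⊓ Γ₀(p)` fixes the image of `embP`, if `G` is stable under `conjP`. -/
theorem smul_embP (hconj : ∀ (γ : SL(2, ℤ)) (hγ : γ ∈ Gamma0 p), γ ∈ G → conjP p γ hγ ∈ G)
    {γ : SL(2, ℤ)} (hG : γ ∈ G) (hγ : γ ∈ Gamma0 p)
    (f : ↥(laurentBaseChange L (levelField F₀ p))) : γ • embP p D0 hQ f = embP p D0 hQ f := by
  have h := ringHom_ext_levelField F₀ p L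
    ((MulSemiringAction.toRingHom SL(2, ℤ) MerFun γ).comp (embP p D0 hQ)) (embP p D0 hQ)
    (fun x => by
      rw [RingHom.comp_apply, MulSemiringAction.toRingHom_apply, embP_alphaL]
      exact D0.fixed γ hG x)
    (fun x => by
      rw [RingHom.comp_apply, MulSemiringAction.toRingHom_apply, embP_betaL,
        smul_diagGL_inv_smul p γ hγ, D0.fixed _ (hconj γ hγ hG) x])
  exact DFunLike.congr_fun h f

/-- **The embedding data at level `G ⊓ Γ₀(p)`**, with exact stabiliser. -/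
def embDataP
    (hconj : ∀ (γ : SL(2, ℤ)) (hγ : γ ∈ Gamma0 p), γ ∈ G → conjP p γ hγ ∈ G) :
    EmbData L ↥(laurentBaseChange L (levelField F₀ p)) ι (alphaL F₀ p L x0) (G ⊓ Gamma0 p) where
  emb := embP p D0 hQ
  emb_const := embP_const p D0 hQ
  emb_x := by rw [embP_alphaL]; exact D0.emb_x
  fixed := fun γ hγ f => smul_embP p D0 hQ hconj hγ.1 hγ.2 f
  stab := fun γ h => by
    refine ⟨D0.stab γ fun x => ?_, ?_⟩
    · have h1 := h (alphaL F₀ p L x)
      rwa [embP_alphaL] at h1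
    · have h1 := h (betaL F₀ p L x0)
      rw [embP_betaL, D0.emb_x, MerFun.smul_algebraMap, MerFun.sl_smul_algebraMap] at h1
      have h2 : (diagGL p)⁻¹ • jHol = jd p := (jd_eq_smul p).symm
      rw [h2] at h1
      exact mem_Gamma0_of_smul_jd_eq (IsFractionRing.injective HolFun MerFun h1)

@[simp] theorem embDataP_emb
    (hconj : ∀ (γ : SL(2, ℤ)) (hγ : γ ∈ Gamma0 p), γ ∈ G → conjP p γ hγ ∈ G) :
    (embDataP p D0 hQ hconj).emb = embP p D0 hQ := rfl

end Data

/-! ### Cusp-meromorphy with an explicit level -/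

section Cusp

open Fermat.Agent.S27x.G2b

variable {K F : Type*} [Field K] [Field F] [Algebra K F]

/-- If `F` is algebraic over `K⟮x⟯`, constants go to constants, `x` goes to `j`, and all conjugates
of `T ^ n` fix the image of `emb`, then all translates of all `emb f` are quotients of
`n`-periodic holomorphic functions of moderate growth. -/
theorem isCuspMer_smul_of_conj (emb : F →+* MerFun) (x : F)
    [Algebra.IsAlgebraic (IntermediateField.adjoin K {x}) F]
    (hK : ∀ c : K, ∃ z : ℂ,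
      emb (algebraMap K F c) = algebraMap HolFun MerFun (algebraMap ℂ HolFun z))
    (hx : emb x = algebraMap HolFun MerFun jHol) (n : ℕ)
    (hn : ∀ (g : SL(2, ℤ)) (f : F), (g⁻¹ * ModularGroup.T ^ n * g) • emb f = emb f)
    (g : SL(2, ℤ)) (f : F) : IsCuspMer n (g • emb f) := by
  have hK' : ∀ (g : SL(2, ℤ)) (c : K), g • emb (algebraMap K F c) = emb (algebraMap K F c) := by
    intro g c
    obtain ⟨z, hz⟩ := hK c
    rw [hz, MerFun.sl_smul_algebraMap, HolFun.sl_smul_algebraMap]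
  have hx' : ∀ g : SL(2, ℤ), g • emb x = emb x := by
    intro g
    rw [hx, MerFun.sl_smul_algebraMap, sl_smul_jHol]
  refine isCuspMer_of_ringHom (K := K) (twEmb emb g) x (fun c => ?_) ?_ f ?_
  · obtain ⟨z, hz⟩ := hK c
    rw [twEmb_apply, hK' g c, hz]
    exact isCuspMer_const n z
  · rw [twEmb_apply, hx' g, hx]
    exact isCuspMer_algebraMap (jHol_mem_cuspFnAlg n)
  · rw [twEmb_apply]
    calc ModularGroup.T ^ n • g • emb f
        = g • ((g⁻¹ * ModularGroup.T ^ n * g) • emb f) := by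
          rw [← mul_smul, ← mul_smul]
          congr 1
          group
      _ = g • emb f := by rw [hn g f]

variable {F₀ : IntermediateField ℚ (LaurentSeries ℚ)} (p : ℕ) [NeZero p]
  {L : Type} [Field L] [Algebra ℚ L] {ι : L →+* ℂ} {G : Subgroup SL(2, ℤ)}
  {x0 : ↥(laurentBaseChange L F₀)}
  (D0 : EmbData L ↥(laurentBaseChange L F₀) ι x0 G)
  (hQ : ∀ f : ↥(laurentBaseChange L F₀), HasQ (D0.emb f) (coeffMap ι (f : LaurentSeries L)))

/-- All values of `embP` lie in `cuspAllField n`, as soon as all conjugates of `T ^ n` lie in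
`G ⊓ Γ₀(p)` and `F₁_L` is algebraic over `L(j)`. -/
theorem embP_mem_cuspAllField
    (hconj : ∀ (γ : SL(2, ℤ)) (hγ : γ ∈ Gamma0 p), γ ∈ G → conjP p γ hγ ∈ G)
    [Algebra.IsAlgebraic (IntermediateField.adjoin L {alphaL F₀ p L x0})
      ↥(laurentBaseChange L (levelField F₀ p))]
    (n : ℕ) (hn : ∀ g : SL(2, ℤ), g⁻¹ * ModularGroup.T ^ n * g ∈ G ⊓ Gamma0 p)
    (f : ↥(laurentBaseChange L (levelField F₀ p))) :
    embP p D0 hQ f ∈ NormAlpha.cuspAllField n := by
  intro g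
  refine isCuspMer_smul_of_conj (K := L) (embP p D0 hQ) (alphaL F₀ p L x0)
    (fun c => ⟨ι c, embP_const p D0 hQ c⟩) ?_ n (fun g f => ?_) g f
  · rw [embP_alphaL]
    exact D0.emb_x
  · exact smul_embP p D0 hQ hconj (hn g).1 (hn g).2 f

end Cusp

end Fermat.Agent.S48x.Ana.LevelP
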