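/-
P-S48, block G1 layer (a), slice (A7) (helper48), part 4: the SECOND EMBEDDING
`ι₀ : F₁_L →+* L((s))` of the level field (expansion at the cusp of width `p` above `∞`, in the
parameter `s = q^{1/p}`), over an ARBITRARY field of constants `L` with `ι : L →+* ℂ`.  This is
the input `ι₀, hι₀, hδ` of helper38's `HeckeFF/NormQ1.normQExp_hecke`.

* `ratField ι Ψ`, `ratLift` : for a ring homomorphism `Ψ : F →+* MerFun`, the subfield of the `f`
  such that `Ψ f` has a `q`-expansion with coefficients in `ι(L)`, and (if it is everything) the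
  resulting ring homomorphism `F →+* L((q))`;
* `hasQ_upperGL_smul` : `z ↦ h(z / p)`... more precisely `upperGL p 0 • h = (z ↦ h (p z))` has
  `q`-expansion `s(q^p)`;
* `exists_iota0` : for `γ0 ∈ G`, `γ1` with `diag(1,p) γ0 = γ1 diag(p,1)` and `δ₀` with
  `D0.emb (δ₀ v) = γ1 • D0.emb v`: a ring homomorphism `ι₀` with `ι₀ (α x) = x(s^p)` and
  `ι₀ (β v) = (δ₀ v)(s)`.
-/
import Fermat.Agent.S48x.Ana.LevelP.Emb
import Fermat.Agent.Gateway.Dict.NormQExpAux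

set_option autoImplicit false
set_option linter.unusedSectionVars false

noncomputable section

open ModularCurve IntermediateField CongruenceSubgroup
open UpperHalfPlane hiding I
open scoped MatrixGroups

namespace Fermat.Agent.S48x.Ana.LevelP

open Fermat.Agent.S24 Fermat.Agent.S24.JLevel Fermat.Agent.S24.QExp
open Fermat.Agent.Gateway.Dict Fermat.Agent.Gateway.Dict.QExpMer
open Fermat.Agent.Gateway.Dict.ConjAbs Fermat.Agent.Gateway.Dict.NormQExpAux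
open Fermat.Agent.S48x.HeckeFF

/-! ### Descending `q`-expansions to a subfield of constants -/

section Rat

variable {L : Type*} [Field L] (ι : L →+* ℂ) {F : Type*} [Field F] (Ψ : F →+* MerFun)

/-- The subfield of the `f` such that `Ψ f` has a `q`-expansion with coefficients in `ι(L)`. -/
def ratField : Subfield F where
  carrier := {f | ∃ s : LaurentSeries L, HasQ (Ψ f) (coeffMap ι s)}
  mul_mem' := by
    rintro f g ⟨s, hs⟩ ⟨s', hs'⟩
    exact ⟨s * s', by rw [map_mul, map_mul]; exact hs.mul hs'⟩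
  one_mem' := ⟨1, by rw [map_one, map_one]; exact hasQ_one⟩
  add_mem' := by
    rintro f g ⟨s, hs⟩ ⟨s', hs'⟩
    exact ⟨s + s', by rw [map_add, map_add]; exact hasQ_add hs hs'⟩
  zero_mem' := ⟨0, by rw [map_zero, map_zero]; exact hasQ_zero⟩
  neg_mem' := by
    rintro f ⟨s, hs⟩
    exact ⟨-s, by rw [map_neg, map_neg]; exact hasQ_neg hs⟩
  inv_mem' := by
    rintro f ⟨s, hs⟩
    exact ⟨s⁻¹, by rw [map_inv₀, map_inv₀]; exact hs.inv⟩

theorem mem_ratField {f : F} :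
    f ∈ ratField ι Ψ ↔ ∃ s : LaurentSeries L, HasQ (Ψ f) (coeffMap ι s) := Iff.rfl

variable {ι Ψ}

/-- The `L`-rational `q`-expansion of `Ψ f`. -/
def ratLiftFun (h : ∀ f, f ∈ ratField ι Ψ) (f : F) : LaurentSeries L := Classical.choose (h f)

theorem hasQ_ratLiftFun (h : ∀ f, f ∈ ratField ι Ψ) (f : F) :
    HasQ (Ψ f) (coeffMap ι (ratLiftFun h f)) := Classical.choose_spec (h f)

theorem ratLiftFun_eq (h : ∀ f, f ∈ ratField ι Ψ) {f : F} {s : LaurentSeries L}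
    (hs : HasQ (Ψ f) (coeffMap ι s)) : ratLiftFun h f = s :=
  (coeffMap ι).injective ((hasQ_ratLiftFun h f).unique hs)

/-- The `L`-rational `q`-expansion of `Ψ`, as a ring homomorphism. -/
def ratLift (h : ∀ f, f ∈ ratField ι Ψ) : F →+* LaurentSeries L where
  toFun := ratLiftFun h
  map_one' := ratLiftFun_eq h (by rw [map_one, map_one]; exact hasQ_one)
  map_mul' a b := ratLiftFun_eq h (by
    rw [map_mul, map_mul]; exact (hasQ_ratLiftFun h a).mul (hasQ_ratLiftFun h b))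
  map_zero' := ratLiftFun_eq h (by rw [map_zero, map_zero]; exact hasQ_zero)
  map_add' a b := ratLiftFun_eq h (by
    rw [map_add, map_add]; exact hasQ_add (hasQ_ratLiftFun h a) (hasQ_ratLiftFun h b))

theorem hasQ_ratLift (h : ∀ f, f ∈ ratField ι Ψ) (f : F) :
    HasQ (Ψ f) (coeffMap ι (ratLift h f)) := hasQ_ratLiftFun h f

theorem ratLift_eq (h : ∀ f, f ∈ ratField ι Ψ) {f : F} {s : LaurentSeries L}
    (hs : HasQ (Ψ f) (coeffMap ι s)) : ratLift h f = s := ratLiftFun_eq h hs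

end Rat

/-! ### The matrix `diag(1, p)` -/

section Upper

variable (p : ℕ) [NeZero p]

/-- `diag(1,p)⁻¹ • z = p z`. -/
theorem coe_upperGL_zero_inv_smul (z : ℍ) :
    (((upperGL p 0)⁻¹ • z : ℍ) : ℂ) = (p : ℂ) * z := by
  have h := coe_upperGL_smul p 0 ((upperGL p 0)⁻¹ • z)
  rw [smul_inv_smul] at h
  have hp : (p : ℂ) ≠ 0 := by exact_mod_cast NeZero.ne p
  rw [h]
  push_cast
  rw [add_zero, mul_div_cancel₀ _ hp]

/-- `diag(1,p) • h = (z ↦ h (p z))` has `q`-expansion `s(q^p)`. -/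
theorem hasQ_upperGL_smul {h : MerFun} {s : LaurentSeries ℂ} (hs : HasQ h s) :
    HasQ (upperGL p 0 • h) (qExpand ℂ p s) := by
  have h1 := hs.smul_scale (d := p) (upperGL p 0)⁻¹ (coe_upperGL_zero_inv_smul p)
  rwa [inv_inv] at h1

/-- From the integer identity `diag(1,p) γ0 = γ1 diag(p,1)` to `GL(2,ℝ)⁺`. -/
theorem upperGL_mul_slToGLPos {γ0 γ1 : SL(2, ℤ)}
    (hrel : !![1, 0; 0, (p : ℤ)] * (γ0 : Matrix (Fin 2) (Fin 2) ℤ) =
      (γ1 : Matrix (Fin 2) (Fin 2) ℤ) * !![(p : ℤ), 0; 0, 1]) :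
    upperGL p 0 * HolFun.slToGLPos γ0 = HolFun.slToGLPos γ1 * diagGL p := by
  apply NormQExpBridge.glPos_ext
  have h1 := congrArg (fun M : Matrix (Fin 2) (Fin 2) ℤ => M.map (Int.castRingHom ℝ)) hrel
  simp only [Matrix.map_mul] at h1
  have e1 : (!![(p : ℤ), 0; 0, 1] : Matrix (Fin 2) (Fin 2) ℤ).map (Int.castRingHom ℝ) =
      !![(p : ℝ), 0; 0, 1] := by
    ext i j
    fin_cases i <;> fin_cases j <;> simp
  have e2 : (!![1, 0; 0, (p : ℤ)] : Matrix (Fin 2) (Fin 2) ℤ).map (Int.castRingHom ℝ) =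
      !![(1 : ℝ), (0 : ℝ); 0, (p : ℝ)] := by
    ext i j
    fin_cases i <;> fin_cases j <;> simp
  rw [e1, e2] at h1
  exact h1

/-- `diag(1,p) • γ0 • (z ↦ h (p z)) = γ1 • h`. -/
theorem upperGL_smul_smul_diagGL_inv_smul {γ0 γ1 : SL(2, ℤ)}
    (hrel : !![1, 0; 0, (p : ℤ)] * (γ0 : Matrix (Fin 2) (Fin 2) ℤ) =
      (γ1 : Matrix (Fin 2) (Fin 2) ℤ) * !![(p : ℤ), 0; 0, 1]) (h : MerFun) :
    upperGL p 0 • (γ0 • ((diagGL p)⁻¹ • h)) = γ1 • h := by
  rw [sl_smul_eq_glPos γ0, sl_smul_eq_glPos γ1, ← mul_smul, ← mul_smul,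
    upperGL_mul_slToGLPos p hrel, mul_assoc, mul_inv_cancel, mul_one]

end Upper

/-! ### The second embedding -/

section Iota

variable {F₀ : IntermediateField ℚ (LaurentSeries ℚ)} (p : ℕ) [NeZero p]
  {L : Type} [Field L] [Algebra ℚ L] {ι : L →+* ℂ} {G : Subgroup SL(2, ℤ)}
  {x0 : ↥(laurentBaseChange L F₀)}
  (D0 : EmbData L ↥(laurentBaseChange L F₀) ι x0 G)
  (hQ : ∀ f : ↥(laurentBaseChange L F₀), HasQ (D0.emb f) (coeffMap ι (f : LaurentSeries L)))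

/-- The ring homomorphism `f ↦ diag(1,p) • γ0 • embP f`, i.e. `z ↦ (γ0 • embP f)(p z)`. -/
def sEmb (γ0 : SL(2, ℤ)) : ↥(laurentBaseChange L (levelField F₀ p)) →+* MerFun :=
  (MulSemiringAction.toRingHom GL(2, ℝ)⁺ MerFun (upperGL p 0)).comp
    ((MulSemiringAction.toRingHom SL(2, ℤ) MerFun γ0).comp (embP p D0 hQ))

theorem sEmb_apply (γ0 : SL(2, ℤ)) (f : ↥(laurentBaseChange L (levelField F₀ p))) :
    sEmb p D0 hQ γ0 f = upperGL p 0 • (γ0 • embP p D0 hQ f) := rfl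

theorem hasQ_sEmb_alphaL {γ0 : SL(2, ℤ)} (hγ0 : γ0 ∈ G) (x : ↥(laurentBaseChange L F₀)) :
    HasQ (sEmb p D0 hQ γ0 (alphaL F₀ p L x))
      (coeffMap ι (qExpand L p (x : LaurentSeries L))) := by
  rw [sEmb_apply, embP_alphaL, D0.fixed γ0 hγ0 x, coeffMap_qExpand]
  exact hasQ_upperGL_smul p (hQ x)

theorem hasQ_sEmb_betaL {γ0 γ1 : SL(2, ℤ)}
    (hrel : !![1, 0; 0, (p : ℤ)] * (γ0 : Matrix (Fin 2) (Fin 2) ℤ) =
      (γ1 : Matrix (Fin 2) (Fin 2) ℤ) * !![(p : ℤ), 0; 0, 1])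
    {v w : ↥(laurentBaseChange L F₀)} (hw : D0.emb w = γ1 • D0.emb v) :
    HasQ (sEmb p D0 hQ γ0 (betaL F₀ p L v)) (coeffMap ι (w : LaurentSeries L)) := by
  rw [sEmb_apply, embP_betaL, upperGL_smul_smul_diagGL_inv_smul p hrel, ← hw]
  exact hQ w

/-- Every element of `F₁_L` has an `L`-rational expansion at the second cusp. -/
theorem mem_ratField_sEmb {γ0 γ1 : SL(2, ℤ)} (hγ0 : γ0 ∈ G)
    (hrel : !![1, 0; 0, (p : ℤ)] * (γ0 : Matrix (Fin 2) (Fin 2) ℤ) =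
      (γ1 : Matrix (Fin 2) (Fin 2) ℤ) * !![(p : ℤ), 0; 0, 1])
    (hδ : ∀ v : ↥(laurentBaseChange L F₀), ∃ w : ↥(laurentBaseChange L F₀),
      D0.emb w = γ1 • D0.emb v)
    (f : ↥(laurentBaseChange L (levelField F₀ p))) : f ∈ ratField ι (sEmb p D0 hQ γ0) := by
  have hα : ∀ x, alphaL F₀ p L x ∈ ratField ι (sEmb p D0 hQ γ0) := fun x =>
    ⟨_, hasQ_sEmb_alphaL p D0 hQ hγ0 x⟩
  have hβ : ∀ v, betaL F₀ p L v ∈ ratField ι (sEmb p D0 hQ γ0) := fun v => by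
    obtain ⟨w, hw⟩ := hδ v
    exact ⟨_, hasQ_sEmb_betaL p D0 hQ hrel hw⟩
  let E' : IntermediateField L ↥(laurentBaseChange L (levelField F₀ p)) :=
    { ratField ι (sEmb p D0 hQ γ0) with
      algebraMap_mem' := fun c => by
        have h1 : algebraMap L ↥(laurentBaseChange L (levelField F₀ p)) c =
            alphaL F₀ p L (algebraMap L ↥(laurentBaseChange L F₀) c) :=
          ((alphaL F₀ p L).commutes c).symm
        show algebraMap L ↥(laurentBaseChange L (levelField F₀ p)) c ∈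
          ratField ι (sEmb p D0 hQ γ0)
        rw [h1]
        exact hα _ }
  have hE : ∀ x, x ∈ E' ↔ x ∈ ratField ι (sEmb p D0 hQ γ0) := fun _ => Iff.rfl
  have htop : E' = ⊤ :=
    eq_top_of_alphaL_betaL_mem F₀ p L E' (fun x => (hE _).mpr (hα x)) (fun x => (hE _).mpr (hβ x))
  exact (hE f).mp (htop ▸ IntermediateField.mem_top)

/-- **The second embedding.**  For `γ0 ∈ G` and `γ1` with `diag(1,p) γ0 = γ1 diag(p,1)` (so
`γ0 = (p u, w; c, d)`, `γ1 = (u, w; c, p d)`) and `δ₀` realising the action of `γ1` on `F₀_L`: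
a ring homomorphism `ι₀ : F₁_L →+* L((s))` with `ι₀ (α x) = x(s^p)` and `ι₀ (β v) = (δ₀ v)(s)`. -/
theorem exists_iota0 {γ0 γ1 : SL(2, ℤ)} (hγ0 : γ0 ∈ G)
    (hrel : !![1, 0; 0, (p : ℤ)] * (γ0 : Matrix (Fin 2) (Fin 2) ℤ) =
      (γ1 : Matrix (Fin 2) (Fin 2) ℤ) * !![(p : ℤ), 0; 0, 1])
    (δ₀ : ↥(laurentBaseChange L F₀) → ↥(laurentBaseChange L F₀))
    (hδ₀ : ∀ v, D0.emb (δ₀ v) = γ1 • D0.emb v) :
    ∃ ι₀ : ↥(laurentBaseChange L (levelField F₀ p)) →+* LaurentSeries L,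
      (∀ x : ↥(laurentBaseChange L F₀),
        ι₀ (alphaL F₀ p L x) = qExpand L p (x : LaurentSeries L)) ∧
      (∀ v : ↥(laurentBaseChange L F₀), ι₀ (betaL F₀ p L v) = (δ₀ v : LaurentSeries L)) ∧
      ∀ f, HasQ (upperGL p 0 • (γ0 • embP p D0 hQ f)) (coeffMap ι (ι₀ f)) := by
  have h := mem_ratField_sEmb p D0 hQ hγ0 hrel (fun v => ⟨δ₀ v, hδ₀ v⟩)
  refine ⟨ratLift h, fun x => ?_, fun v => ?_, fun f => hasQ_ratLift h f⟩
  · exact ratLift_eq h (hasQ_sEmb_alphaL p D0 hQ hγ0 x)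
  · exact ratLift_eq h (hasQ_sEmb_betaL p D0 hQ hrel (hδ₀ v))

end Iota

end Fermat.Agent.S48x.Ana.LevelP
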